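import Fermat.Agent.S28.H568.DeltaSeries

/-!
# S28 / H568 — conjugates of `u_d = Δ(dτ)/Δ(τ)` under `SL₂(ℤ)` and their expansions at `∞`
-/

set_option autoImplicit false

noncomputable section

open HahnSeries ModularCurve UpperHalfPlane Complex Matrix
open scoped Real MatrixGroups

namespace Fermat.Agent.S28.H568

open Fermat.Agent.S24

local notation "Δ" => ModularForm.discriminant

/-! ### the coefficient ring -/

/-- The coefficient ring `ℤ[μ_N, 1/N] ⊆ ℂ`. -/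
def coeffRing (N : ℕ) : Subring ℂ :=
  Subring.closure ({z : ℂ | z ^ N = 1} ∪ {(N : ℂ)⁻¹})

theorem root_mem_coeffRing {N : ℕ} {z : ℂ} (hz : z ^ N = 1) : z ∈ coeffRing N :=
  Subring.subset_closure (Or.inl hz)

theorem inv_N_mem_coeffRing (N : ℕ) : (N : ℂ)⁻¹ ∈ coeffRing N :=
  Subring.subset_closure (Or.inr rfl)

theorem natCast_mem_coeffRing (N n : ℕ) : (n : ℂ) ∈ coeffRing N := natCast_mem _ n

theorem inv_mem_coeffRing_of_dvd {N d : ℕ} (hN : 0 < N) (hd : d ∣ N) :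
    (d : ℂ)⁻¹ ∈ coeffRing N := by
  obtain ⟨c, rfl⟩ := hd
  have hd0 : (d : ℂ) ≠ 0 := by
    have : 0 < d := Nat.pos_of_mul_pos_right hN
    exact_mod_cast this.ne'
  have hc0 : (c : ℂ) ≠ 0 := by
    have : 0 < c := Nat.pos_of_mul_pos_left hN
    exact_mod_cast this.ne'
  have : (d : ℂ)⁻¹ = (c : ℂ) * ((d * c : ℕ) : ℂ)⁻¹ := by
    push_cast
    field_simp
  rw [this]
  exact (coeffRing (d * c)).mul_mem (natCast_mem_coeffRing _ c) (inv_N_mem_coeffRing _)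

theorem infRoot_mem_coeffRing {N d : ℕ} (hd0 : 0 < d) (hd : d ∣ N) (b : ℤ) :
    ((infRoot b d : ℂˣ) : ℂ) ∈ coeffRing N := by
  apply root_mem_coeffRing
  obtain ⟨c, rfl⟩ := hd
  have hd' : (d : ℂ) ≠ 0 := by exact_mod_cast hd0.ne'
  rw [infRoot_coe, ← Complex.exp_nat_mul]
  have : ((d * c : ℕ) : ℂ) * (2 * π * Complex.I * b / d) = ((c * b : ℤ) : ℂ) * (2 * π * Complex.I) := by
    push_cast
    field_simp
  rw [this, Complex.exp_int_mul_two_pi_mul_I]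

theorem infRoot_inv_mem_coeffRing {N d : ℕ} (hd0 : 0 < d) (hd : d ∣ N) (b : ℤ) :
    (((infRoot b d)⁻¹ : ℂˣ) : ℂ) ∈ coeffRing N := by
  apply root_mem_coeffRing
  have h := infRoot_mem_coeffRing hd0 hd b
  obtain ⟨c, rfl⟩ := hd
  have hd' : (d : ℂ) ≠ 0 := by exact_mod_cast hd0.ne'
  rw [← Units.val_pow_eq_pow_val, inv_pow, Units.val_inv_eq_inv_val, Units.val_pow_eq_pow_val,
    infRoot_coe, ← Complex.exp_nat_mul]
  have : ((d * c : ℕ) : ℂ) * (2 * π * Complex.I * b / d) = ((c * b : ℤ) : ℂ) * (2 * π * Complex.I) := by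
    push_cast
    field_simp
  rw [this, Complex.exp_int_mul_two_pi_mul_I, inv_one]

/-! ### the conjugate series -/

/-- The expansion of `d⁻¹² Δ((aτ+b)/d) / Δ(τ)` in `z = exp(2πiτ/N)`, where `e = aN/d`. -/
def conjS (e N : ℕ) [NeZero e] [NeZero N] (b : ℤ) (d : ℕ) : LaurentSeries ℂ :=
  HahnSeries.C (((d : ℂ)⁻¹) ^ 12) *
    (qExpand ℂ e (infTwist (infRoot b d) dS) * qExpand ℂ N dInvS)

/-- The expansion of the inverse `d¹² Δ(τ) / Δ((aτ+b)/d)`. -/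
def conjInvS (e N : ℕ) [NeZero e] [NeZero N] (b : ℤ) (d : ℕ) : LaurentSeries ℂ :=
  HahnSeries.C ((d : ℂ) ^ 12) *
    (qExpand ℂ e (infTwist (infRoot b d) dInvS) * qExpand ℂ N dS)

section ConjS

variable (e N : ℕ) [NeZero e] [NeZero N] (b : ℤ) {d : ℕ}

theorem conjS_mul_conjInvS (hd : 0 < d) : conjS e N b d * conjInvS e N b d = 1 := by
  have hd' : (d : ℂ) ≠ 0 := by exact_mod_cast hd.ne'
  have h1 : (HahnSeries.C (((d : ℂ)⁻¹) ^ 12) : LaurentSeries ℂ) * HahnSeries.C ((d : ℂ) ^ 12)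
      = 1 := by
    rw [← map_mul, ← mul_pow, inv_mul_cancel₀ hd', one_pow, map_one]
  have h2 : qExpand ℂ e (infTwist (infRoot b d) dS) *
      qExpand ℂ e (infTwist (infRoot b d) dInvS) = 1 := by
    rw [← map_mul, ← map_mul, dS_mul_dInvS, map_one, map_one]
  have h3 : qExpand ℂ N dInvS * qExpand ℂ N dS = 1 := by
    rw [← map_mul, mul_comm, dS_mul_dInvS, map_one]
  calc conjS e N b d * conjInvS e N b d
      = ((HahnSeries.C (((d : ℂ)⁻¹) ^ 12) : LaurentSeries ℂ) * HahnSeries.C ((d : ℂ) ^ 12)) *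
        (qExpand ℂ e (infTwist (infRoot b d) dS) *
          qExpand ℂ e (infTwist (infRoot b d) dInvS)) *
        (qExpand ℂ N dInvS * qExpand ℂ N dS) := by
        rw [conjS, conjInvS]; ring
    _ = 1 := by rw [h1, h2, h3, one_mul, one_mul]

theorem conjS_ne_zero (hd : 0 < d) : conjS e N b d ≠ 0 :=
  left_ne_zero_of_mul_eq_one (conjS_mul_conjInvS e N b hd)

theorem conjInvS_eq_inv (hd : 0 < d) : conjInvS e N b d = (conjS e N b d)⁻¹ :=
  eq_inv_of_mul_eq_one_right (conjS_mul_conjInvS e N b hd)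

theorem conjS_order (hd : 0 < d) : (conjS e N b d).order = (e : ℤ) - N := by
  have hd' : (d : ℂ) ≠ 0 := by exact_mod_cast hd.ne'
  have hC : (HahnSeries.C (((d : ℂ)⁻¹) ^ 12) : LaurentSeries ℂ) ≠ 0 := by
    rw [Ne, ← map_zero (HahnSeries.C (Γ := ℤ) (R := ℂ)), HahnSeries.C_injective.eq_iff]
    exact pow_ne_zero _ (inv_ne_zero hd')
  have h1 : qExpand ℂ e (infTwist (infRoot b d) dS) ≠ 0 := by
    rw [Ne, inf_qExpand_eq_zero_iff, infTwist_eq_zero_iff]; exact dS_ne_zero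
  have h2 : qExpand ℂ N dInvS ≠ 0 := by
    rw [Ne, inf_qExpand_eq_zero_iff]; exact dInvS_ne_zero
  rw [conjS, HahnSeries.order_mul hC (mul_ne_zero h1 h2), HahnSeries.order_mul h1 h2,
    HahnSeries.order_C, inf_qExpand_order, inf_qExpand_order, infTwist_order, dS_order,
    dInvS_order]
  ring

theorem conjS_mem {M : ℕ} (hd : 0 < d) (hdM : d ∣ M) (hM : 0 < M) :
    conjS e N b d ∈ coeffSubring (coeffRing M) := by
  refine Subring.mul_mem _ (C_mem_coeffSubring (Subring.pow_mem _ (inv_mem_coeffRing_of_dvd hM hdM) 12))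
    (Subring.mul_mem _ (qExpand_mem_coeffSubring e (infTwist_mem_coeffSubring _
      (infRoot_mem_coeffRing hd hdM b) (infRoot_inv_mem_coeffRing hd hdM b)
      (dS_mem_coeffSubring _))) (qExpand_mem_coeffSubring N (dInvS_mem_coeffSubring _)))

theorem conjInvS_mem {M : ℕ} (hd : 0 < d) (hdM : d ∣ M) :
    conjInvS e N b d ∈ coeffSubring (coeffRing M) := by
  refine Subring.mul_mem _ (C_mem_coeffSubring (Subring.pow_mem _ (natCast_mem_coeffRing M d) 12))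
    (Subring.mul_mem _ (qExpand_mem_coeffSubring e (infTwist_mem_coeffSubring _
      (infRoot_mem_coeffRing hd hdM b) (infRoot_inv_mem_coeffRing hd hdM b)
      (dInvS_mem_coeffSubring _))) (qExpand_mem_coeffSubring N (dS_mem_coeffSubring _)))

end ConjS

/-! ### the functions `u_d` and their conjugates -/

/-- `u_d(τ) = Δ(dτ)/Δ(τ)`. -/
def uFun (d : ℕ) (τ : ℍ) : ℂ := Δ (infAff d 0 1 τ) / Δ τ

theorem uFun_ne_zero (d : ℕ) (τ : ℍ) : uFun d τ ≠ 0 :=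
  div_ne_zero (ModularForm.discriminant_ne_zero _) (ModularForm.discriminant_ne_zero _)

/-- Transformation of `u_d` along the Hermite normal form. -/
theorem uFun_smul {d a d' : ℕ} {b : ℤ} (hd : 0 < d) (ha : 0 < a) (hd' : 0 < d')
    (γ γ' : SL(2, ℤ))
    (h00 : (d : ℤ) * γ 0 0 = γ' 0 0 * a) (h01 : (d : ℤ) * γ 0 1 = γ' 0 0 * b + γ' 0 1 * d')
    (h10 : γ 1 0 = γ' 1 0 * a) (h11 : γ 1 1 = γ' 1 0 * b + γ' 1 1 * d') (τ : ℍ) :
    uFun d (γ • τ) = ((d' : ℂ)⁻¹) ^ 12 * (Δ (infAff a b d' τ) * (Δ τ)⁻¹) := by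
  rw [uFun, inf_aff_smul_eq hd ha hd' γ γ' h00 h01 h10 h11 τ, discriminant_smul γ',
    discriminant_smul γ, infAff_coe ha hd']
  have hden := inf_sl_denom_ne_zero γ τ
  have hd'0 : (d' : ℂ) ≠ 0 := by exact_mod_cast hd'.ne'
  have e10 : ((γ 1 0 : ℤ) : ℂ) = ((γ' 1 0 : ℤ) : ℂ) * a := by exact_mod_cast h10
  have e11 : ((γ 1 1 : ℤ) : ℂ) = ((γ' 1 0 : ℤ) : ℂ) * b + ((γ' 1 1 : ℤ) : ℂ) * d' := by
    exact_mod_cast h11
  have hden'' : ((γ' 1 0 : ℤ) : ℂ) * (((a : ℂ) * τ + b) / d') + ((γ' 1 1 : ℤ) : ℂ) =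
      (((γ 1 0 : ℤ) : ℂ) * τ + ((γ 1 1 : ℤ) : ℂ)) / d' := by
    rw [e10, e11]
    field_simp
    ring
  rw [hden'']
  have hΔ := ModularForm.discriminant_ne_zero τ
  field_simp

/-- The `a` of the Hermite normal form is `gcd(d, γ₁₀)`. -/
theorem hnf_a_eq_gcd {d a d' : ℕ} (γ γ' : SL(2, ℤ)) (had : a * d' = d)
    (h00 : (d : ℤ) * γ 0 0 = γ' 0 0 * a) (h10 : γ 1 0 = γ' 1 0 * a) :
    a = Nat.gcd d (γ 1 0).natAbs := by
  apply Nat.dvd_antisymm
  · apply Nat.dvd_gcd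
    · exact Dvd.intro _ had
    · rw [h10, Int.natAbs_mul, Int.natAbs_natCast]
      exact Dvd.intro_left _ rfl
  · -- gcd divides `γ'₀₀ a` and `γ'₁₀ a`, and `γ'₀₀, γ'₁₀` are coprime
    have hdet := inf_sl_det γ'
    set g := Nat.gcd d (γ 1 0).natAbs with hg
    have hg1 : (g : ℤ) ∣ (d : ℤ) := by exact_mod_cast Nat.gcd_dvd_left d (γ 1 0).natAbs
    have hg2 : (g : ℤ) ∣ γ 1 0 := by
      have := Nat.gcd_dvd_right d (γ 1 0).natAbs
      exact Int.natCast_dvd.mpr this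
    have h1 : (g : ℤ) ∣ γ' 0 0 * a := by rw [← h00]; exact Dvd.dvd.mul_right hg1 _
    have h2 : (g : ℤ) ∣ γ' 1 0 * a := by rw [← h10]; exact hg2
    have h3 : (g : ℤ) ∣ (a : ℤ) := by
      have : (a : ℤ) = γ' 1 1 * (γ' 0 0 * a) - γ' 0 1 * (γ' 1 0 * a) := by
        linear_combination (-(a : ℤ)) * hdet
      rw [this]
      exact Dvd.dvd.sub (Dvd.dvd.mul_left h1 _) (Dvd.dvd.mul_left h2 _)
    exact_mod_cast h3

end Fermat.Agent.S28.H568
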