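import Fermat.Agent.S28.H568.Unit
import Fermat.Prelude.Def_GaloisRep_Flat

/-!
# S28 / H568 — the formal unit `û ∈ ℤ((q))`, the expansion of `u` itself, `Γ₀(N)`-invariance,
and the coefficient ring
-/

set_option autoImplicit false

noncomputable section

open HahnSeries ModularCurve UpperHalfPlane Complex Matrix
open scoped Real MatrixGroups

namespace Fermat.Agent.S28.H568

open Fermat.Agent.S24 Fermat.Agent.S28.H207

local notation "Δ" => ModularForm.discriminant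

/-! ### the formal unit -/

/-- The formal modular unit `u_d = Δ(q^d)/Δ(q)` as a unit of `ℤ((q))` (`1` if `d = 0`). -/
def udU (d : ℕ) : (LaurentSeries ℤ)ˣ :=
  if h : d = 0 then 1 else
    haveI : NeZero d := ⟨h⟩
    Units.map ((qExpand ℤ d : LaurentSeries ℤ →+* LaurentSeries ℤ) : _ →* _) deltaU * deltaU⁻¹

theorem udU_val {d : ℕ} [NeZero d] :
    ((udU d : (LaurentSeries ℤ)ˣ) : LaurentSeries ℤ) = qExpand ℤ d deltaZ * deltaInvZ := by
  rw [udU, dif_neg (NeZero.ne d)]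
  rfl

/-- The formal single-pole unit `û = ∏_{d ∣ N} u_d^{-μ(N/d) d}` as a unit of `ℤ((q))`. -/
def uHatU (N : ℕ) : (LaurentSeries ℤ)ˣ := ∏ d ∈ N.divisors, udU d ^ unitExp N d

/-- The formal single-pole unit `û ∈ ℤ((q))`. -/
def uHat (N : ℕ) : LaurentSeries ℤ := (uHatU N : LaurentSeries ℤ)

/-- The ring homomorphism `ℤ((q)) → ℂ((z))`, `q ↦ z^N`. -/
def toZ (N : ℕ) [NeZero N] : LaurentSeries ℤ →+* LaurentSeries ℂ := (qExpand ℂ N).comp castC

theorem toZ_apply (N : ℕ) [NeZero N] (x : LaurentSeries ℤ) :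
    toZ N x = qExpand ℂ N (castC x) := rfl

theorem toZ_injective (N : ℕ) [NeZero N] : Function.Injective (toZ N) :=
  (qExpand_injective N).comp castC_injective

theorem toZ_order (N : ℕ) [NeZero N] (x : LaurentSeries ℤ) :
    (toZ N x).order = N * x.order := by
  rw [toZ_apply, inf_qExpand_order,
    inf_coeffMap_order (RingHom.injective_int (Int.castRingHom ℂ))]

theorem toZ_leadingCoeff (N : ℕ) [NeZero N] (x : LaurentSeries ℤ) :
    (toZ N x).leadingCoeff = (x.leadingCoeff : ℂ) := by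
  rw [toZ_apply, inf_qExpand_leadingCoeff,
    inf_coeffMap_leadingCoeff (RingHom.injective_int (Int.castRingHom ℂ))]
  rfl

theorem toZ_udU (N d : ℕ) [NeZero N] [NeZero d] :
    toZ N (udU d) = qExpand ℂ (d * N) dS * qExpand ℂ N dInvS := by
  rw [toZ_apply, udU_val, map_mul, map_mul, coeffMap_qExpand, castC_deltaZ, castC_deltaInvZ,
    qExpand_qExpand]
  rw [qExpand_congr (mul_comm N d)]

theorem map_units_prod_zpow {R K : Type*} [CommRing R] [Field K] (f : R →+* K) {ι : Type*}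
    (s : Finset ι) (x : ι → Rˣ) (r : ι → ℤ) :
    f ((∏ i ∈ s, x i ^ r i : Rˣ) : R) = ∏ i ∈ s, (f (x i : R)) ^ r i := by
  have h1 : f ((∏ i ∈ s, x i ^ r i : Rˣ) : R) =
      ((Units.map (f : R →* K) (∏ i ∈ s, x i ^ r i) : Kˣ) : K) := rfl
  rw [h1, map_prod, Units.coe_prod]
  refine Finset.prod_congr rfl fun i _ => ?_
  rw [map_zpow, Units.val_zpow_eq_zpow_val]
  rfl

theorem toZ_uHat (N : ℕ) [NeZero N] :
    toZ N (uHat N) = ∏ d ∈ N.divisors, (toZ N (udU d)) ^ unitExp N d :=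
  map_units_prod_zpow (toZ N) N.divisors udU (unitExp N)

/-! ### expansion of `u_d` and of `u` at the identity coset -/

theorem infExp_uFun (N d : ℕ) [NeZero N] [NeZero d] :
    InfExp N (uFun d) (toZ N (udU d)) := by
  have hN : 0 < N := Nat.pos_of_ne_zero (NeZero.ne N)
  have hd : 0 < d := Nat.pos_of_ne_zero (NeZero.ne d)
  have h1 := infExp_delta_aff (N := N) (e := d * N) 0 hd one_pos hN (by ring)
  rw [infRoot_zero, infTwist_one] at h1
  have h2 := h1.mul (infExp_delta_inv_N (N := N))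
  rw [toZ_udU]
  exact h2.congr fun τ => by rw [uFun, div_eq_mul_inv]

theorem infExp_uFun_inv (N d : ℕ) [NeZero N] [NeZero d] :
    InfExp N (fun τ => (uFun d τ)⁻¹) (toZ N (udU d))⁻¹ := by
  have hN : 0 < N := Nat.pos_of_ne_zero (NeZero.ne N)
  have hd : 0 < d := Nat.pos_of_ne_zero (NeZero.ne d)
  have h1 := infExp_delta_inv_aff (N := N) (e := d * N) 0 hd one_pos hN (by ring)
  rw [infRoot_zero, infTwist_one] at h1
  have h2 := h1.mul (infExp_delta_N (N := N))
  have hinv : (toZ N (udU d))⁻¹ = qExpand ℂ (d * N) dInvS * qExpand ℂ N dS := by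
    rw [toZ_udU]
    symm
    apply eq_inv_of_mul_eq_one_right
    have e1 : qExpand ℂ (d * N) dS * qExpand ℂ (d * N) dInvS = 1 := by
      rw [← map_mul, dS_mul_dInvS, map_one]
    have e2 : qExpand ℂ N dInvS * qExpand ℂ N dS = 1 := by
      rw [← map_mul, mul_comm, dS_mul_dInvS, map_one]
    calc qExpand ℂ (d * N) dS * qExpand ℂ N dInvS *
        (qExpand ℂ (d * N) dInvS * qExpand ℂ N dS)
        = (qExpand ℂ (d * N) dS * qExpand ℂ (d * N) dInvS) *
          (qExpand ℂ N dInvS * qExpand ℂ N dS) := by ring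
      _ = 1 := by rw [e1, e2, one_mul]
  rw [hinv]
  refine h2.congr fun τ => ?_
  rw [uFun, inv_div, div_eq_mul_inv, mul_comm]

theorem toZ_udU_ne_zero (N d : ℕ) [NeZero N] : toZ N (udU d) ≠ 0 := by
  intro h
  have := (toZ_injective N) (h.trans (map_zero (toZ N)).symm)
  exact (udU d).ne_zero this

/-- **Expansion of the unit itself**: `u` has the expansion `û(z^N)`. -/
theorem infExp_uN (N : ℕ) [NeZero N] : InfExp N (uN N) (toZ N (uHat N)) := by
  rw [toZ_uHat]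
  refine (InfExp.prod' N.divisors (f := fun d τ => uFun d τ ^ unitExp N d)
    fun d hd => ?_).congr fun τ => rfl
  have : NeZero d := ⟨(Nat.pos_of_mem_divisors hd).ne'⟩
  exact InfExp.zpow' (infExp_uFun N d) (infExp_uFun_inv N d)
    (mul_inv_cancel₀ (toZ_udU_ne_zero N d)) _

theorem toZ_udU_order (N d : ℕ) [NeZero N] [NeZero d] :
    (toZ N (udU d)).order = (d : ℤ) * N - N := by
  have h1 : qExpand ℂ (d * N) dS ≠ 0 := by
    rw [Ne, inf_qExpand_eq_zero_iff]; exact dS_ne_zero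
  have h2 : qExpand ℂ N dInvS ≠ 0 := by
    rw [Ne, inf_qExpand_eq_zero_iff]; exact dInvS_ne_zero
  rw [toZ_udU, HahnSeries.order_mul h1 h2, inf_qExpand_order, inf_qExpand_order, dS_order,
    dInvS_order]
  push_cast
  ring

theorem toZ_udU_leadingCoeff (N d : ℕ) [NeZero N] [NeZero d] :
    (toZ N (udU d)).leadingCoeff = 1 := by
  rw [toZ_udU, HahnSeries.leadingCoeff_mul, inf_qExpand_leadingCoeff, inf_qExpand_leadingCoeff,
    dS_leadingCoeff, dInvS_leadingCoeff, one_mul]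

theorem uHat_ne_zero (N : ℕ) : uHat N ≠ 0 := (uHatU N).ne_zero

theorem uHat_isUnit (N : ℕ) : IsUnit (uHat N) := (uHatU N).isUnit

theorem toZ_uHat_order (N : ℕ) [NeZero N] :
    (toZ N (uHat N)).order = ∑ d ∈ N.divisors, unitExp N d * cuspOrd N d 0 := by
  rw [toZ_uHat, order_prod' _ _ fun d _ => zpow_ne_zero _ (toZ_udU_ne_zero N d)]
  refine Finset.sum_congr rfl fun d hd => ?_
  have : NeZero d := ⟨(Nat.pos_of_mem_divisors hd).ne'⟩
  rw [order_zpow' (toZ_udU_ne_zero N d), toZ_udU_order, cuspOrd, Nat.gcd_zero_right]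
  have hdN : d ∣ N := Nat.dvd_of_mem_divisors hd
  have h1 : ((N / d : ℕ) : ℤ) * (d : ℤ) = N := by exact_mod_cast Nat.div_mul_cancel hdN
  congr 1
  linear_combination (-(d : ℤ)) * h1

/-- The formal unit has a pole at `q = 0` (for `N > 1`). -/
theorem uHat_order_neg (N : ℕ) [NeZero N] (hN : 1 < N) : (uHat N).order < 0 := by
  have h1 := toZ_uHat_order N
  rw [toZ_order] at h1
  have h2 := sum_unitExp_mul_cuspOrd_neg N 0 hN (dvd_zero N)
  rw [← h1] at h2
  have hN0 : (0 : ℤ) < N := by exact_mod_cast (by omega : 0 < N)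
  by_contra hcon
  rw [not_lt] at hcon
  have := mul_nonneg hN0.le hcon
  omega

theorem uHat_leadingCoeff (N : ℕ) [NeZero N] : (uHat N).leadingCoeff = 1 := by
  have h1 : (toZ N (uHat N)).leadingCoeff = 1 := by
    rw [toZ_uHat, leadingCoeff_prod']
    refine Finset.prod_eq_one fun d hd => ?_
    have : NeZero d := ⟨(Nat.pos_of_mem_divisors hd).ne'⟩
    rw [leadingCoeff_zpow', toZ_udU_leadingCoeff, _root_.one_zpow]
  rw [toZ_leadingCoeff] at h1
  exact_mod_cast h1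

/-! ### `Γ₀(N)`-invariance -/

theorem discriminant_infAff_eq (d : ℕ) (hd : 0 < d) (b : ℤ) (τ : ℍ) :
    Δ (infAff d b 1 τ) = Δ (infAff d 0 1 τ) := by
  have : NeZero d := ⟨hd.ne'⟩
  have h1 := infExp_delta_aff (N := 1) (e := d) b hd one_pos one_pos (by ring)
  have h2 := infExp_delta_aff (N := 1) (e := d) 0 hd one_pos one_pos (by ring)
  have hroot : infRoot b 1 = infRoot 0 1 := (infRoot_eq_iff one_pos).mpr (by simp)
  rw [hroot] at h1
  exact congrFun (h1.fun_unique h2) τ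

theorem uFun_smul_of_dvd {d : ℕ} (hd : 0 < d) (γ : SL(2, ℤ)) (hγ : (d : ℤ) ∣ γ 1 0) (τ : ℍ) :
    uFun d (γ • τ) = uFun d τ := by
  obtain ⟨γ', a, d', b, ha, hd', had, h00, h01, h10, h11⟩ := inf_exists_hnf d hd γ
  have hagcd := hnf_a_eq_gcd γ γ' had h00 h10
  have hdvd : d ∣ (γ 1 0).natAbs := Int.natCast_dvd.mp hγ
  rw [Nat.gcd_eq_left hdvd] at hagcd
  subst hagcd
  have hd'1 : d' = 1 := by
    have : a * d' = a * 1 := by rw [had, mul_one]
    exact Nat.eq_of_mul_eq_mul_left ha this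
  subst hd'1
  rw [uFun_smul hd ha one_pos γ γ' h00 h01 h10 h11 τ, discriminant_infAff_eq a ha b τ, uFun]
  simp [div_eq_mul_inv]

/-- **`Γ₀(N)`-invariance of the unit.** -/
theorem uN_smul (N : ℕ) [NeZero N] (γ : SL(2, ℤ)) (hγ : γ ∈ CongruenceSubgroup.Gamma0 N)
    (τ : ℍ) : uN N (γ • τ) = uN N τ := by
  rw [CongruenceSubgroup.Gamma0_mem, ZMod.intCast_zmod_eq_zero_iff_dvd] at hγ
  rw [uN, uN]
  refine Finset.prod_congr rfl fun d hd => ?_
  have hdN : d ∣ N := Nat.dvd_of_mem_divisors hd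
  rw [uFun_smul_of_dvd (Nat.pos_of_mem_divisors hd) γ
    (dvd_trans (by exact_mod_cast hdN) hγ) τ]

/-! ### the coefficient ring is `ℓ`-integral for `ℓ ∤ N` -/

theorem exists_pow_mul_isIntegral {N : ℕ} (hN : 0 < N) {x : ℂ} (hx : x ∈ coeffRing N) :
    ∃ m : ℕ, IsIntegral ℤ ((N : ℂ) ^ m * x) := by
  have hNint : ∀ m : ℕ, IsIntegral ℤ ((N : ℂ) ^ m) := fun m =>
    (isIntegral_algebraMap (R := ℤ) (A := ℂ) (x := (N : ℤ))).pow m |> fun h => by simpa using h
  induction hx using Subring.closure_induction with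
  | mem z hz =>
    rcases hz with hz | hz
    · refine ⟨0, ?_⟩
      rw [pow_zero, one_mul]
      exact IsIntegral.of_pow hN (by rw [hz]; exact isIntegral_one)
    · refine ⟨1, ?_⟩
      rw [Set.mem_singleton_iff] at hz
      have hN0 : (N : ℂ) ≠ 0 := by exact_mod_cast hN.ne'
      rw [hz, pow_one, mul_inv_cancel₀ hN0]
      exact isIntegral_one
  | zero => exact ⟨0, by simpa using isIntegral_zero⟩
  | one => exact ⟨0, by simpa using isIntegral_one⟩
  | add x y _ _ hx hy =>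
    obtain ⟨m, hm⟩ := hx
    obtain ⟨n, hn⟩ := hy
    refine ⟨m + n, ?_⟩
    have : (N : ℂ) ^ (m + n) * (x + y) =
        (N : ℂ) ^ n * ((N : ℂ) ^ m * x) + (N : ℂ) ^ m * ((N : ℂ) ^ n * y) := by ring
    rw [this]
    exact ((hNint n).mul hm).add ((hNint m).mul hn)
  | neg x _ hx =>
    obtain ⟨m, hm⟩ := hx
    exact ⟨m, by rw [mul_neg]; exact hm.neg⟩
  | mul x y _ _ hx hy =>
    obtain ⟨m, hm⟩ := hx
    obtain ⟨n, hn⟩ := hy
    refine ⟨m + n, ?_⟩
    have : (N : ℂ) ^ (m + n) * (x * y) = ((N : ℂ) ^ m * x) * ((N : ℂ) ^ n * y) := by ring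
    rw [this]
    exact hm.mul hn

/-- A rational number in `ℤ[μ_N, 1/N]` is `ℓ`-integral for every prime `ℓ ∤ N`. -/
theorem rat_mem_ratLocalizedAt {N ℓ : ℕ} (hN : 0 < N) (hℓ : ℓ.Prime) (hℓN : ¬ ℓ ∣ N) (r : ℚ)
    (hr : (r : ℂ) ∈ coeffRing N) : r ∈ GaloisRep.ratLocalizedAt ℓ := by
  obtain ⟨m, hm⟩ := exists_pow_mul_isIntegral hN hr
  have h1 : IsIntegral ℤ (((N : ℚ) ^ m * r : ℚ)) := by
    have : ((N : ℂ) ^ m * (r : ℂ)) = algebraMap ℚ ℂ ((N : ℚ) ^ m * r) := by
      simp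
    rw [this] at hm
    exact (isIntegral_algebraMap_iff (algebraMap ℚ ℂ).injective).mp hm
  obtain ⟨k, hk⟩ := IsIntegrallyClosed.isIntegral_iff.mp h1
  have hN0 : (N : ℚ) ^ m ≠ 0 := pow_ne_zero _ (by exact_mod_cast hN.ne')
  have hr' : r = Rat.divInt k ((N : ℤ) ^ m) := by
    rw [Rat.divInt_eq_div]
    push_cast
    rw [eq_div_iff hN0, mul_comm]
    exact hk.symm
  show r.den.Coprime ℓ
  have hden : (r.den : ℤ) ∣ (N : ℤ) ^ m := by
    rw [hr']
    exact Rat.den_dvd k _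
  have hden' : r.den ∣ N ^ m := by exact_mod_cast hden
  have hcop : Nat.Coprime (N ^ m) ℓ :=
    Nat.Coprime.pow_left m ((Nat.coprime_comm.mp ((Nat.Prime.coprime_iff_not_dvd hℓ).mpr hℓN)))
  exact Nat.Coprime.coprime_dvd_left hden' hcop

end Fermat.Agent.S28.H568
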