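import Fermat.Agent.S28.H568.Conj
import Fermat.Agent.S28.H207.UnitOrd

/-!
# S28 / H568 — the single-pole unit `u = ∏_{d ∣ N} (Δ(dτ)/Δ(τ))^{-μ(N/d) d}`:
expansions of all its `SL₂(ℤ)`-conjugates at `∞`
-/

set_option autoImplicit false

noncomputable section

open HahnSeries ModularCurve UpperHalfPlane Complex Matrix
open scoped Real MatrixGroups

namespace Fermat.Agent.S28.H568

open Fermat.Agent.S24 Fermat.Agent.S28.H207

local notation "Δ" => ModularForm.discriminant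

/-! ### conjugates of `u_d` -/

theorem leadingCoeff_C_mul (c : ℂ) (x : LaurentSeries ℂ) :
    (HahnSeries.C c * x).leadingCoeff = c * x.leadingCoeff := by
  rw [HahnSeries.leadingCoeff_mul, HahnSeries.C_apply, HahnSeries.leadingCoeff_of_single]

theorem conjS_leadingCoeff (e N : ℕ) [NeZero e] [NeZero N] (b : ℤ) (d : ℕ) :
    (conjS e N b d).leadingCoeff = ((d : ℂ)⁻¹) ^ 12 * ((infRoot b d : ℂˣ) : ℂ) := by
  rw [conjS, leadingCoeff_C_mul, HahnSeries.leadingCoeff_mul, inf_qExpand_leadingCoeff,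
    inf_qExpand_leadingCoeff, infTwist_leadingCoeff, dS_leadingCoeff, dInvS_leadingCoeff,
    dS_order, zpow_one, one_mul, mul_one]

theorem cuspOrd_eq {N d a : ℕ} {c : ℕ} (ha : a = Nat.gcd d c) :
    ((a * a * (N / d) : ℕ) : ℤ) - N = cuspOrd N d c := by
  rw [cuspOrd, ← ha]
  push_cast
  ring

/-- **Conjugates of `u_d`.** For `d ∣ N` and `γ ∈ SL₂(ℤ)` the function `u_d ∘ γ` and its inverse
have convergent expansions in `z = exp(2πiτ/N)` with coefficients in `ℤ[μ_N, 1/N]`, of order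
`(N/d) gcd(d, c)² - N`, `c = γ₁₀`. -/
theorem exists_conj_uFun {N d : ℕ} [NeZero N] (hdN : d ∣ N) (γ : SL(2, ℤ)) :
    ∃ ψ : LaurentSeries ℂ, ψ ≠ 0 ∧ InfExp N (fun τ => uFun d (γ • τ)) ψ ∧
      InfExp N (fun τ => (uFun d (γ • τ))⁻¹) ψ⁻¹ ∧
      ψ ∈ coeffSubring (coeffRing N) ∧ ψ⁻¹ ∈ coeffSubring (coeffRing N) ∧
      ψ.order = cuspOrd N d (γ 1 0).natAbs := by
  have hN : 0 < N := Nat.pos_of_ne_zero (NeZero.ne N)
  have hd : 0 < d := Nat.pos_of_dvd_of_pos hdN hN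
  obtain ⟨γ', a, d', b, ha, hd', had, h00, h01, h10, h11⟩ := inf_exists_hnf d hd γ
  have hagcd := hnf_a_eq_gcd γ γ' had h00 h10
  have hNd : 0 < N / d := Nat.div_pos (Nat.le_of_dvd hN hdN) hd
  have hd'N : d' ∣ N := (Dvd.intro_left a had).trans hdN
  have : NeZero (a * a * (N / d)) := ⟨(Nat.mul_pos (Nat.mul_pos ha ha) hNd).ne'⟩
  have he : a * a * (N / d) * d' = a * N := by
    have h1 : N / d * d = N := Nat.div_mul_cancel hdN
    calc a * a * (N / d) * d' = a * ((N / d) * (a * d')) := by ring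
      _ = a * N := by rw [had, h1]
  have hd'0 : (d' : ℂ) ≠ 0 := by exact_mod_cast hd'.ne'
  refine ⟨conjS (a * a * (N / d)) N b d', conjS_ne_zero _ _ _ hd', ?_, ?_,
    conjS_mem _ _ _ hd' hd'N hN, ?_, ?_⟩
  · have h1 := (infExp_delta_aff (N := N) b ha hd' hN he).mul (infExp_delta_inv_N (N := N))
    have h2 := (InfExp.const (N := N) (((d' : ℂ)⁻¹) ^ 12)).mul h1
    exact h2.congr fun τ => (uFun_smul hd ha hd' γ γ' h00 h01 h10 h11 τ).symm
  · rw [← conjInvS_eq_inv _ _ _ hd']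
    have h1 := (infExp_delta_inv_aff (N := N) b ha hd' hN he).mul (infExp_delta_N (N := N))
    have h2 := (InfExp.const (N := N) ((d' : ℂ) ^ 12)).mul h1
    refine h2.congr fun τ => ?_
    rw [uFun_smul hd ha hd' γ γ' h00 h01 h10 h11 τ]
    have hΔ := ModularForm.discriminant_ne_zero τ
    have hΔ' := ModularForm.discriminant_ne_zero (infAff a b d' τ)
    field_simp
  · rw [← conjInvS_eq_inv _ _ _ hd']
    exact conjInvS_mem _ _ _ hd' hd'N
  · rw [conjS_order _ _ _ hd']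
    exact cuspOrd_eq hagcd

/-! ### the unit -/

/-- The single-pole unit `u(τ) = ∏_{d ∣ N} u_d(τ)^{-μ(N/d) d}`. -/
def uN (N : ℕ) (τ : ℍ) : ℂ := ∏ d ∈ N.divisors, uFun d τ ^ unitExp N d

theorem zpow_mem_of_inv_mem {S : Subring (LaurentSeries ℂ)} {x : LaurentSeries ℂ}
    (hx : x ∈ S) (hx' : x⁻¹ ∈ S) (r : ℤ) : x ^ r ∈ S := by
  obtain ⟨n, rfl | rfl⟩ := r.eq_nat_or_neg
  · rw [zpow_natCast]; exact Subring.pow_mem _ hx n
  · rw [_root_.zpow_neg, zpow_natCast, ← inv_pow]; exact Subring.pow_mem _ hx' n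

/-- **Conjugates of the unit.** For every `γ ∈ SL₂(ℤ)` the function `u ∘ γ` has a convergent
expansion in `z = exp(2πiτ/N)`, with coefficients (and those of its inverse) in `ℤ[μ_N, 1/N]`,
of order `∑_d unitExp N d * cuspOrd N d |γ₁₀|`. -/
theorem exists_conj_uN (N : ℕ) [NeZero N] (γ : SL(2, ℤ)) :
    ∃ φ : LaurentSeries ℂ, φ ≠ 0 ∧ InfExp N (fun τ => uN N (γ • τ)) φ ∧
      φ ∈ coeffSubring (coeffRing N) ∧ φ⁻¹ ∈ coeffSubring (coeffRing N) ∧
      φ.order = ∑ d ∈ N.divisors, unitExp N d * cuspOrd N d (γ 1 0).natAbs := by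
  have key : ∀ d : ℕ, ∃ ψ : LaurentSeries ℂ, d ∈ N.divisors →
      (ψ ≠ 0 ∧ InfExp N (fun τ => uFun d (γ • τ)) ψ ∧
      InfExp N (fun τ => (uFun d (γ • τ))⁻¹) ψ⁻¹ ∧
      ψ ∈ coeffSubring (coeffRing N) ∧ ψ⁻¹ ∈ coeffSubring (coeffRing N) ∧
      ψ.order = cuspOrd N d (γ 1 0).natAbs) := by
    intro d
    by_cases hd : d ∈ N.divisors
    · obtain ⟨ψ, hψ⟩ := exists_conj_uFun (Nat.dvd_of_mem_divisors hd) γ
      exact ⟨ψ, fun _ => hψ⟩
    · exact ⟨0, fun h => absurd h hd⟩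
  choose ψ hψ using key
  refine ⟨∏ d ∈ N.divisors, ψ d ^ unitExp N d, ?_, ?_, ?_, ?_, ?_⟩
  · exact Finset.prod_ne_zero_iff.mpr fun d hd => zpow_ne_zero _ (hψ d hd).1
  · refine (InfExp.prod' N.divisors (f := fun d τ => uFun d (γ • τ) ^ unitExp N d)
      fun d hd => ?_).congr fun τ => rfl
    exact InfExp.zpow' (hψ d hd).2.1 (hψ d hd).2.2.1 (mul_inv_cancel₀ (hψ d hd).1) _
  · exact Subring.prod_mem _ fun d hd =>
      zpow_mem_of_inv_mem (hψ d hd).2.2.2.1 (hψ d hd).2.2.2.2.1 _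
  · rw [← Finset.prod_inv_distrib]
    refine Subring.prod_mem _ fun d hd => ?_
    rw [← _root_.zpow_neg]
    exact zpow_mem_of_inv_mem (hψ d hd).2.2.2.1 (hψ d hd).2.2.2.2.1 _
  · rw [order_prod' _ _ fun d hd => zpow_ne_zero _ (hψ d hd).1]
    refine Finset.sum_congr rfl fun d hd => ?_
    rw [order_zpow' (hψ d hd).1, (hψ d hd).2.2.2.2.2]

/-- For `γ ∉ Γ₀(N)` the conjugate `u ∘ γ` vanishes at `∞`. -/
theorem exists_conj_uN_of_not_mem (N : ℕ) [NeZero N] (γ : SL(2, ℤ))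
    (hγ : γ ∉ CongruenceSubgroup.Gamma0 N) :
    ∃ φ : LaurentSeries ℂ, φ ≠ 0 ∧ InfExp N (fun τ => uN N (γ • τ)) φ ∧
      φ ∈ coeffSubring (coeffRing N) ∧ φ⁻¹ ∈ coeffSubring (coeffRing N) ∧ 0 < φ.order := by
  obtain ⟨φ, h0, h1, h2, h3, h4⟩ := exists_conj_uN N γ
  refine ⟨φ, h0, h1, h2, h3, ?_⟩
  rw [h4]
  apply sum_unitExp_mul_cuspOrd_natAbs_pos N (γ 1 0) (NeZero.ne N)
  intro hdvd
  apply hγ
  rw [CongruenceSubgroup.Gamma0_mem, ZMod.intCast_zmod_eq_zero_iff_dvd]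
  exact hdvd

end Fermat.Agent.S28.H568
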